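import Mathlib
import Fermat.Prelude.Def_ModularCurve_IgusaScheme
import Fermat.Prelude.Def_ModularCurve_X0ModL

/-!
# IG-C, part [C3]: degree bookkeeping and the residue field contains the full field

* `rank_eq_relrank_of_map_eq`, `finiteDimensional_of_map_eq`, `exists_linearIndependent_fullC`:
  for ANY subfield `K₀` of `F = modularFunctionFieldFull N` whose image in `ℚ((q))` is `ℚ(j)`,
  the two `relrank` hypotheses of IG-C give: `F` is finite over `K₀`, and there are
  `n = [F : K₀]` elements of `𝔽_ℓ(j(q^d) : d ∣ N)` linearly independent over `𝔽_ℓ(j)`.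
* `baseK0 N = Subfield.closure {jFull N}` is such a subfield (`baseK0_map`).
* `fullC_le_range_red`: any ring hom `Red : O → 𝔽_ℓ((q))` from a subring of a field whose
  image is closed under inverses and contains all `j(q^d)`, `d ∣ N`, hits the whole field
  `modularFunctionFieldFullC (ZMod ℓ) N`.
-/

set_option autoImplicit false
open ModularCurve ModularCurve.IgusaScheme IntermediateField
noncomputable section

namespace Fermat.Agent.H27

section Bookkeeping

variable (N : ℕ) [NeZero N]

theorem rank_eq_relrank_of_map_eq (K₀ : Subfield ↥(modularFunctionFieldFull N))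
    (hK₀ : K₀.map (algebraMap ↥(modularFunctionFieldFull N) (LaurentSeries ℚ)) =
      (IntermediateField.adjoin ℚ {jq}).toSubfield) :
    Module.rank ↥K₀ ↥(modularFunctionFieldFull N) =
      IntermediateField.relrank (IntermediateField.adjoin ℚ {jq})
        (modularFunctionFieldFull N) := by
  rw [IntermediateField.relrank, ← hK₀, ← Subfield.relrank_top_right (A := K₀),
    ← Subfield.relrank_map_map K₀ ⊤ (algebraMap ↥(modularFunctionFieldFull N) (LaurentSeries ℚ))]
  congr 1
  ext x
  simp only [Subfield.mem_map, Subfield.mem_top, true_and]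
  constructor
  · rintro ⟨y, rfl⟩
    exact y.2
  · intro hx
    exact ⟨⟨x, hx⟩, rfl⟩

theorem finiteDimensional_of_map_eq (K₀ : Subfield ↥(modularFunctionFieldFull N))
    (hK₀ : K₀.map (algebraMap ↥(modularFunctionFieldFull N) (LaurentSeries ℚ)) =
      (IntermediateField.adjoin ℚ {jq}).toSubfield)
    (hdeg_fin : IntermediateField.relrank (IntermediateField.adjoin ℚ {jq})
      (modularFunctionFieldFull N) < Cardinal.aleph0) :
    FiniteDimensional ↥K₀ ↥(modularFunctionFieldFull N) := by
  rw [← rank_eq_relrank_of_map_eq N K₀ hK₀] at hdeg_fin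
  exact Module.rank_lt_aleph0_iff.mp hdeg_fin

theorem exists_linearIndependent_fullC (ℓ : ℕ) [Fact ℓ.Prime]
    (K₀ : Subfield ↥(modularFunctionFieldFull N))
    (hK₀ : K₀.map (algebraMap ↥(modularFunctionFieldFull N) (LaurentSeries ℚ)) =
      (IntermediateField.adjoin ℚ {jq}).toSubfield)
    (hdeg : IntermediateField.relrank (IntermediateField.adjoin ℚ {jq}) (modularFunctionFieldFull N)
      ≤ IntermediateField.relrank (IntermediateField.adjoin (ZMod ℓ) {jqModC (ZMod ℓ)})
          (modularFunctionFieldFullC (ZMod ℓ) N))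
    (hdeg_fin : IntermediateField.relrank (IntermediateField.adjoin ℚ {jq})
      (modularFunctionFieldFull N) < Cardinal.aleph0) :
    ∃ v : Fin (Module.finrank ↥K₀ ↥(modularFunctionFieldFull N)) → LaurentSeries (ZMod ℓ),
      (∀ i, v i ∈ modularFunctionFieldFullC (ZMod ℓ) N) ∧
      LinearIndependent ↥(IntermediateField.adjoin (ZMod ℓ) {jqModC (ZMod ℓ)}) v := by
  have hfd := finiteDimensional_of_map_eq N K₀ hK₀ hdeg_fin
  have hle : IntermediateField.adjoin (ZMod ℓ) {jqModC (ZMod ℓ)} ≤
      modularFunctionFieldFullC (ZMod ℓ) N := by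
    rw [IntermediateField.adjoin_le_iff]
    rintro x rfl
    exact jqModC_mem_full (ZMod ℓ) N
  have h1 : ((Module.finrank ↥K₀ ↥(modularFunctionFieldFull N) : ℕ) : Cardinal) ≤
      Module.rank ↥(IntermediateField.adjoin (ZMod ℓ) {jqModC (ZMod ℓ)})
        ↥(IntermediateField.extendScalars hle) := by
    rw [Module.finrank_eq_rank, rank_eq_relrank_of_map_eq N K₀ hK₀,
      ← IntermediateField.relrank_eq_rank_of_le hle]
    exact hdeg
  have hfree : Module.Free ↥(IntermediateField.adjoin (ZMod ℓ) {jqModC (ZMod ℓ)})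
      ↥(IntermediateField.extendScalars hle) := Module.Free.of_divisionRing _ _
  obtain ⟨s, hs, hlin⟩ := le_rank_iff_exists_linearIndependent_finset.mp h1
  have hlin2 : LinearIndependent ↥(IntermediateField.adjoin (ZMod ℓ) {jqModC (ZMod ℓ)})
      (fun x : ↥(s : Set ↥(IntermediateField.extendScalars hle)) =>
        ((x : ↥(IntermediateField.extendScalars hle)) : LaurentSeries (ZMod ℓ))) :=
    hlin.map' (IntermediateField.extendScalars hle).val.toLinearMap
      (LinearMap.ker_eq_bot.mpr (IntermediateField.extendScalars hle).val.injective)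
  let e : Fin (Module.finrank ↥K₀ ↥(modularFunctionFieldFull N)) ≃
      ↥(s : Set ↥(IntermediateField.extendScalars hle)) := (s.equivFinOfCardEq hs).symm
  refine ⟨fun i => (((e i : ↥(s : Set ↥(IntermediateField.extendScalars hle))) :
    ↥(IntermediateField.extendScalars hle)) : LaurentSeries (ZMod ℓ)), ?_, ?_⟩
  · intro i
    exact (IntermediateField.mem_extendScalars hle).mp (e i).1.2
  · exact hlin2.comp e e.injective

/-- `ℚ(j)` inside `F = modularFunctionFieldFull N`, as a subfield -/
def baseK0 : Subfield ↥(modularFunctionFieldFull N) := Subfield.closure {jFull N}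

theorem baseK0_map : (baseK0 N).map (algebraMap ↥(modularFunctionFieldFull N) (LaurentSeries ℚ)) =
    (IntermediateField.adjoin ℚ {jq}).toSubfield := by
  rw [baseK0, RingHom.map_field_closure, Set.image_singleton, IntermediateField.adjoin_toSubfield]
  apply le_antisymm
  · apply Subfield.closure_mono
    intro x hx
    right
    rw [Set.mem_singleton_iff] at hx ⊢
    rw [hx]
    rfl
  · rw [Subfield.closure_le]
    rintro x (⟨q, rfl⟩ | hx)
    · rw [eq_ratCast]
      exact SubfieldClass.ratCast_mem _ q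
    · apply Subfield.subset_closure
      rw [Set.mem_singleton_iff] at hx ⊢
      rw [hx]
      rfl

end Bookkeeping

section Range

/-- The residue field of the Gauss valuation contains the full modular function field in
characteristic `ℓ`. -/
theorem fullC_le_range_red {F : Type*} [Field F] (ℓ : ℕ) [Fact ℓ.Prime] (N : ℕ) [NeZero N]
    (O : Subring F) (Red : ↥O →+* LaurentSeries (ZMod ℓ))
    (hunit : ∀ x : O, Red x ≠ 0 → ∃ y : O, Red y = (Red x)⁻¹)
    (hj : ∀ (d : ℕ) [NeZero d], d ∣ N →
      ∃ x : O, Red x = qExpand (ZMod ℓ) d (jqModC (ZMod ℓ))) :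
    ∀ y ∈ modularFunctionFieldFullC (ZMod ℓ) N, ∃ x : O, Red x = y := by
  intro y hy
  rw [modularFunctionFieldFullC] at hy
  induction hy using IntermediateField.adjoin_induction with
  | mem x hx =>
    obtain ⟨d, hd, hdN, rfl⟩ := hx
    exact hj d hdN
  | algebraMap c =>
    refine ⟨((ZMod.val c : ℕ) : O), ?_⟩
    rw [map_natCast, ← map_natCast (algebraMap (ZMod ℓ) (LaurentSeries (ZMod ℓ))),
      ZMod.natCast_zmod_val]
  | add x y _ _ hx hy =>
    obtain ⟨a, rfl⟩ := hx
    obtain ⟨b, rfl⟩ := hy
    exact ⟨a + b, map_add _ _ _⟩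
  | inv x _ hx =>
    obtain ⟨a, rfl⟩ := hx
    by_cases h0 : Red a = 0
    · exact ⟨0, by rw [h0, inv_zero, map_zero]⟩
    · exact hunit a h0
  | mul x y _ _ hx hy =>
    obtain ⟨a, rfl⟩ := hx
    obtain ⟨b, rfl⟩ := hy
    exact ⟨a * b, map_mul _ _ _⟩

/-- Combination: `n = [F : K₀]` elements of `O` whose reductions are linearly independent over
`𝔽_ℓ(j)`. -/
theorem exists_linearIndependent_red (N : ℕ) [NeZero N] (ℓ : ℕ) [Fact ℓ.Prime]
    (K₀ : Subfield ↥(modularFunctionFieldFull N))
    (hK₀ : K₀.map (algebraMap ↥(modularFunctionFieldFull N) (LaurentSeries ℚ)) =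
      (IntermediateField.adjoin ℚ {jq}).toSubfield)
    (hdeg : IntermediateField.relrank (IntermediateField.adjoin ℚ {jq}) (modularFunctionFieldFull N)
      ≤ IntermediateField.relrank (IntermediateField.adjoin (ZMod ℓ) {jqModC (ZMod ℓ)})
          (modularFunctionFieldFullC (ZMod ℓ) N))
    (hdeg_fin : IntermediateField.relrank (IntermediateField.adjoin ℚ {jq})
      (modularFunctionFieldFull N) < Cardinal.aleph0)
    {F : Type*} [Field F] (O : Subring F) (Red : ↥O →+* LaurentSeries (ZMod ℓ))
    (hunit : ∀ x : O, Red x ≠ 0 → ∃ y : O, Red y = (Red x)⁻¹)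
    (hj : ∀ (d : ℕ) [NeZero d], d ∣ N →
      ∃ x : O, Red x = qExpand (ZMod ℓ) d (jqModC (ZMod ℓ))) :
    ∃ v : Fin (Module.finrank ↥K₀ ↥(modularFunctionFieldFull N)) → O,
      LinearIndependent ↥(IntermediateField.adjoin (ZMod ℓ) {jqModC (ZMod ℓ)})
        (fun i => Red (v i)) := by
  obtain ⟨w, hw, hlin⟩ := exists_linearIndependent_fullC N ℓ K₀ hK₀ hdeg hdeg_fin
  choose v hv using fun i => fullC_le_range_red ℓ N O Red hunit hj (w i) (hw i)
  refine ⟨v, ?_⟩
  have : (fun i => Red (v i)) = w := funext hv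
  rw [this]
  exact hlin

end Range

end Fermat.Agent.H27
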