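import Mathlib

/-!
# Abstract kernel lemma for the q-expansion principle (P-IGUSA, IG-C step (d))

`B ⊆ O₀` integrally closed domains with the same fraction field `K`, `π ∈ B` with
`B ∩ π O₀ = π B`.  If `π g` is integral over `B` and `g` is integral over `O₀`, then `g` is
integral over `B`.
-/

set_option autoImplicit false
noncomputable section
open Polynomial

namespace Fermat.Agent.H27

/-- `c ∈ O₀` with `π^k c ∈ B` implies `c ∈ B`. -/
theorem mem_range_of_mul_pow_mem_range {B O₀ : Type*} [CommRing B] [CommRing O₀] [IsDomain O₀]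
    (φ : B →+* O₀) (hφ : Function.Injective φ) (π : B) (hπ : π ≠ 0)
    (hBO : ∀ b : B, (∃ y : O₀, φ b = φ π * y) → ∃ b' : B, b = π * b') :
    ∀ (k : ℕ) (y : O₀) (b : B), y * φ π ^ k = φ b → ∃ b' : B, y = φ b' := by
  have hπ' : φ π ≠ 0 := fun h => hπ (hφ (by rw [h, map_zero]))
  intro k
  induction k with
  | zero =>
    intro y b h
    exact ⟨b, by simpa using h⟩
  | succ k ih =>
    intro y b h
    obtain ⟨b₁, hb₁⟩ := hBO b ⟨y * φ π ^ k, by rw [← h]; ring⟩
    refine ih y b₁ ?_
    apply mul_left_cancel₀ hπ'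
    rw [← map_mul, ← hb₁, ← h]
    ring

/-- minimal polynomial of a nonzero scalar multiple -/
theorem minpoly_smul_eq_scaleRoots {K L : Type*} [Field K] [Field L] [Algebra K L] (c : K)
    (hc : c ≠ 0) (g : L) (hg : IsIntegral K g) :
    minpoly K (algebraMap K L c * g) = (minpoly K g).scaleRoots c := by
  have hf : IsIntegral K (algebraMap K L c * g) := isIntegral_algebraMap.mul hg
  have h1 : aeval (algebraMap K L c * g) ((minpoly K g).scaleRoots c) = 0 :=
    scaleRoots_aeval_eq_zero (minpoly.aeval K g)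
  have h2 : aeval g ((minpoly K (algebraMap K L c * g)).scaleRoots c⁻¹) = 0 := by
    have := scaleRoots_aeval_eq_zero (r := c⁻¹) (minpoly.aeval K (algebraMap K L c * g))
    rwa [← mul_assoc, ← map_mul, inv_mul_cancel₀ hc, map_one, one_mul] at this
  have hm1 : ((minpoly K g).scaleRoots c).Monic := (monic_scaleRoots_iff c).mpr (minpoly.monic hg)
  have hm2 : ((minpoly K (algebraMap K L c * g)).scaleRoots c⁻¹).Monic :=
    (monic_scaleRoots_iff c⁻¹).mpr (minpoly.monic hf)
  have hd1 := minpoly.dvd K _ h1
  have hd2 := minpoly.dvd K _ h2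
  have hdeg : (minpoly K g).natDegree ≤ (minpoly K (algebraMap K L c * g)).natDegree := by
    have := natDegree_le_of_dvd hd2 hm2.ne_zero
    rwa [natDegree_scaleRoots] at this
  exact (eq_of_monic_of_dvd_of_natDegree_le (minpoly.monic hf) hm1 hd1
    (by rw [natDegree_scaleRoots]; exact hdeg)).symm

/-- **Abstract kernel lemma.** -/
theorem isIntegral_of_mul_isIntegral {B O₀ K L : Type*} [CommRing B] [IsDomain B] [CommRing O₀]
    [IsDomain O₀] [Field K] [Field L] [Algebra B O₀] [Algebra B K] [Algebra O₀ K] [Algebra K L]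
    [Algebra B L] [Algebra O₀ L] [IsScalarTower B O₀ K] [IsScalarTower B K L]
    [IsScalarTower O₀ K L] [IsFractionRing B K] [IsFractionRing O₀ K] [IsIntegrallyClosed B]
    [IsIntegrallyClosed O₀] (π : B) (hπ : π ≠ 0)
    (hBO : ∀ b : B, (∃ y : O₀, algebraMap B O₀ b = algebraMap B O₀ π * y) → ∃ b' : B, b = π * b')
    (f g : L) (hf : IsIntegral B f) (hg : IsIntegral O₀ g) (hfg : f = algebraMap B L π * g) :
    IsIntegral B g := by
  have hBK : Function.Injective (algebraMap B K) := IsFractionRing.injective B K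
  have hOK : Function.Injective (algebraMap O₀ K) := IsFractionRing.injective O₀ K
  have hBO_inj : Function.Injective (algebraMap B O₀) := by
    intro x y hxy
    apply hBK
    rw [IsScalarTower.algebraMap_apply B O₀ K, IsScalarTower.algebraMap_apply B O₀ K, hxy]
  have hc : algebraMap B K π ≠ 0 := fun h => hπ (hBK (by rw [h, map_zero]))
  have hgK : IsIntegral K g := hg.tower_top
  have hmg := minpoly.isIntegrallyClosed_eq_field_fractions' K hg
  have hmf := minpoly.isIntegrallyClosed_eq_field_fractions' K hf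
  have hfg' : f = algebraMap K L (algebraMap B K π) * g := by
    rw [hfg, ← IsScalarTower.algebraMap_apply B K L]
  have hscale := minpoly_smul_eq_scaleRoots (algebraMap B K π) hc g hgK
  rw [← hfg', hmf, hmg] at hscale
  -- coefficientwise
  have hcoeff : ∀ i : ℕ, ∃ b' : B, (minpoly O₀ g).coeff i = algebraMap B O₀ b' := by
    intro i
    have h := congrArg (fun p => p.coeff i) hscale
    simp only [coeff_map, coeff_scaleRoots] at h
    rw [(minpoly.monic hg).natDegree_map] at h
    refine mem_range_of_mul_pow_mem_range (algebraMap B O₀) hBO_inj π hπ hBO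
      ((minpoly O₀ g).natDegree - i) ((minpoly O₀ g).coeff i) ((minpoly B f).coeff i) ?_
    apply hOK
    rw [map_mul, map_pow, ← IsScalarTower.algebraMap_apply B O₀ K,
      ← IsScalarTower.algebraMap_apply B O₀ K]
    exact h.symm
  have hlifts : minpoly O₀ g ∈ lifts (algebraMap B O₀) := by
    rw [lifts_iff_coeff_lifts]
    intro i
    obtain ⟨b', hb'⟩ := hcoeff i
    exact ⟨b', hb'.symm⟩
  obtain ⟨Q, hQ, -, hQm⟩ := lifts_and_natDegree_eq_and_monic hlifts (minpoly.monic hg)
  have : IsScalarTower B O₀ L := IsScalarTower.of_algebraMap_eq (fun x => by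
    rw [IsScalarTower.algebraMap_apply B K L, IsScalarTower.algebraMap_apply B O₀ K,
      ← IsScalarTower.algebraMap_apply O₀ K L])
  refine ⟨Q, hQm, ?_⟩
  have := minpoly.aeval O₀ g
  rw [← hQ, aeval_map_algebraMap] at this
  exact this

end Fermat.Agent.H27
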